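/-
MAZ programme (S15), brick F-G0 (hedge assembly, helper71): **descent of `ReductionInputsModL`
from a level `M` to any divisor `N ∣ M`** (`ℓ ∤ M`), given the equality of the degrees of the
level inclusion on the generic and on the special fibre.

Inputs: `HeckeRed71/CompatGen.exists_descent_along_gen` (descent, helper56's `exists_descent`
instantiated), helper29's `G0Hedge29/Sep` (separability of the special inclusion, integral pairs).
-/
import Mathlib
import Fermat.Agent.MAZ.HeckeRed71.CompatGen
import Fermat.Agent.MAZ.HeckeRed71.Final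
import Fermat.Agent.MAZ.G0Hedge29.Sep

set_option autoImplicit false
set_option linter.unusedSectionVars false
set_option linter.style.haveILetI false
set_option synthInstance.maxHeartbeats 400000

noncomputable section

open HahnSeries ModularCurve IntermediateField AlgebraicCurve

namespace Fermat.Agent.MAZ.HeckeRed71.G0

open Fermat.Agent.MAZ.HeckeRed71.Main Fermat.Agent.MAZ.HeckeRed71.Compat
open Fermat.Agent.MAZ.HeckeRed71.CompatGen Fermat.Agent.MAZ.HeckeRed71.Final
open Fermat.Agent.MAZ.G0Hedge29
open Fermat.Agent.ES.HECKE Fermat.Agent.ES.HECKE.LevelPullback12 Fermat.Agent.ES.RED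
open Fermat.Agent.ES.KRON

local notation "Qb" => AlgebraicClosure ℚ

variable {ℓ : ℕ} [Fact ℓ.Prime] {A : ValuationSubring Qb} (hA : A.LiesOverPrime ℓ)

local notation "κ" => IsLocalRing.ResidueField A
local notation "π" => IsLocalRing.residue A

include hA in
/-- **Level descent of `ReductionInputsModL`.** -/
theorem reductionInputsModL_of_dvd {N M : ℕ} [NeZero N] [NeZero M] (hNM : N ∣ M)
    (hℓM : ¬ ℓ ∣ M) (h' : ReductionInputsModL A M) {d : ℕ} (hd : 0 < d)
    (hdeg : finrankAlong Qb (levelIncl hNM) = d)
    (hfint : FiniteAlong κ (inclC κ hNM)) (hdegt : finrankAlong κ (inclC κ hNM) = d) :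
    ReductionInputsModL A N := by
  haveI : IsAlgClosed κ := KronInst10.isAlgClosed_residueField A
  haveI : CharP κ ℓ := KronInst10.charP_residueField A (Fact.out : ℓ.Prime) hA
  have hℓN : ¬ ℓ ∣ N := fun h => hℓM (h.trans hNM)
  have hr' := isPlaceReductionModL_placeReductionModL h'
  obtain ⟨r, hr, -⟩ := exists_descent_along_gen hA hd hℓN hℓM (levelIncl hNM)
    (levelIncl_isIntegral hNM) (inclC κ hNM)
    (AlongDegree25.isIntegral_of_finiteAlong _ hfint)
    (levelIncl_finiteAlong hNM) hdeg hfint (separableAlong_inclC κ ℓ hNM hℓM) hdegt hr'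
    (hpair_of_forall_integral hNM hr' (pairs A N) (fun _ hp => hp))
    (infinite_place_fullC hA N hℓN)
  exact ⟨r, hr, GaussUnit25.principalGeneratedByIntegral A ℓ hA N hℓN⟩

end Fermat.Agent.MAZ.HeckeRed71.G0
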