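/-
MAZ programme (S15), brick F-G0 (hedge assembly, helper71): **`ReductionInputsModL A N` for every
level `N` prime to the residue characteristic `ℓ` of `A`**, hence F-E4' unconditionally.

* `reductionInputsModL_auxLevel` : at the auxiliary level `auxLevel ℓ N` (two-chart model of chapter
  ES/RED: `ModelAtFinal8.modelAt` + `RedInst15.reductionInputsModL_main`);
* `reductionInputsModL_all` : descent to `N ∣ auxLevel ℓ N` (`G0.reductionInputsModL_of_dvd` with
  helper52's degrees `G0Incl52.exists_degree`);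
* `hG0`, `hE4` : the two leaves in the shapes of `Endgame88.Inst.s15_of_inputs`.
-/
import Mathlib
import Fermat.Agent.MAZ.HeckeRed71.G0
import Fermat.Agent.MAZ.G0Incl52.Degree
import Fermat.Agent.ES.TOP.ModelAtFinal8
import Fermat.Agent.ES.RED.RedInst15

set_option autoImplicit false
set_option linter.unusedSectionVars false
set_option linter.style.haveILetI false
set_option synthInstance.maxHeartbeats 400000

noncomputable section

open HahnSeries ModularCurve IntermediateField AlgebraicCurve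

namespace Fermat.Agent.MAZ.HeckeRed71.G0All

open Fermat.Agent.X0 Fermat.Agent.X0.FF Fermat.Agent.ES.HECKE.LevelPullback12
  Fermat.Agent.RED.Interface4 Fermat.Agent.RED.BASE Fermat.Agent.RED.BASE.Hauptmodul12
  Fermat.Agent.RED.BASE.MainCusp12
  Fermat.Agent.ES.RED.Contract8 Fermat.Agent.ES.RED.TwoCharts8
  Fermat.Agent.ES.RED.GaloisInst21 Fermat.Agent.ES.RED Fermat.Agent.RED.LVL
  Fermat.Agent.ES.TOP Fermat.Agent.ES.KRON

local notation "Qb" => AlgebraicClosure ℚ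

/-- `ReductionInputsModL` at a level carrying a Hauptmodul base. -/
theorem reductionInputsModL_of_base {ℓ : ℕ} (hℓ : ℓ.Prime) (A : ValuationSubring Qb)
    (hA : A.LiesOverPrime ℓ) (n e : ℕ) [NeZero n] (hb : BaseHyp n e) (M : ℕ) [NeZero M]
    (hnM : n ∣ M) (hℓM : ¬ ℓ ∣ M) : ReductionInputsModL A M := by
  haveI : Fact ℓ.Prime := ⟨hℓ⟩
  obtain ⟨x, hx, T, hS0, hS1, hs0, peel0, peel1⟩ :=
    ModelAtFinal8.modelAt ℓ hℓ A hA n e hb M hnM hℓM
  exact RedInst15.reductionInputsModL_main n e M ℓ hℓM (tMem_of_dvd hb hnM) (tGenBase' hb) A hA T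
    hS0 hS1 hs0 peel0 peel1

/-- **`ReductionInputsModL` at the auxiliary level.** -/
theorem reductionInputsModL_auxLevel {ℓ : ℕ} (hℓ : ℓ.Prime) (N : ℕ) [NeZero N] (hℓN : ¬ ℓ ∣ N)
    (A : ValuationSubring Qb) (hA : A.LiesOverPrime ℓ) :
    haveI := LevelDegree17.neZero_auxLevel ℓ N
    ReductionInputsModL A (auxLevel ℓ N) := by
  haveI := LevelDegree17.neZero_auxLevel ℓ N
  have hℓM : ¬ ℓ ∣ auxLevel ℓ N := not_dvd_auxLevel hℓ hℓN
  by_cases h2 : ℓ = 2
  · haveI : NeZero 9 := ⟨by norm_num⟩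
    exact reductionInputsModL_of_base hℓ A hA 9 3 baseHyp_nine _
      (AuxBase8.nine_dvd_auxLevel N h2) hℓM
  · haveI : NeZero 4 := ⟨by norm_num⟩
    exact reductionInputsModL_of_base hℓ A hA 4 8 baseHyp_four _
      (AuxBase8.four_dvd_auxLevel N h2) hℓM

/-- **F-G0: `ReductionInputsModL A N` at every level `N` prime to `ℓ`.** -/
theorem reductionInputsModL_all {ℓ : ℕ} (hℓ : ℓ.Prime) (N : ℕ) [NeZero N] (hℓN : ¬ ℓ ∣ N)
    (A : ValuationSubring Qb) (hA : A.LiesOverPrime ℓ) : ReductionInputsModL A N := by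
  haveI : Fact ℓ.Prime := ⟨hℓ⟩
  haveI := LevelDegree17.neZero_auxLevel ℓ N
  haveI : IsAlgClosed (IsLocalRing.ResidueField A) := KronInst10.isAlgClosed_residueField A
  haveI : CharP (IsLocalRing.ResidueField A) ℓ := KronInst10.charP_residueField A hℓ hA
  have hℓM : ¬ ℓ ∣ auxLevel ℓ N := not_dvd_auxLevel hℓ hℓN
  have hNM : N ∣ auxLevel ℓ N := dvd_auxLevel ℓ N
  obtain ⟨d, hd, hdφ, hdφt⟩ :=
    Fermat.Agent.MAZ.G0Incl52.exists_degree (IsLocalRing.ResidueField A) ℓ hNM hℓM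
  exact G0.reductionInputsModL_of_dvd hA hNM hℓM (reductionInputsModL_auxLevel hℓ N hℓN A hA) hd
    hdφ (Fermat.Agent.MAZ.G0Incl52.finiteAlong_inclC (IsLocalRing.ResidueField A) ℓ hNM hℓM) hdφt

/-- **Leaf F-G0** in the shape of `Endgame88.Inst.s15_of_inputs`. -/
theorem hG0 {p : ℕ} [NeZero p] (hp : p.Prime) {ℓ' : ℕ} (hℓ' : ℓ'.Prime) (hℓ'p : ℓ' ≠ p)
    (A' : ValuationSubring Qb) (hA' : A'.LiesOverPrime ℓ') : ReductionInputsModL A' p :=
  reductionInputsModL_all hℓ' p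
    (fun hd => hℓ'p ((Nat.prime_dvd_prime_iff_eq hℓ' hp).mp hd)) A' hA'

/-- **Leaf F-E4'** in the shape of `Endgame88.Inst.s15_of_inputs`: the kernel of the reduction
modulo `ℓ'` on `J₀(p)` is stable under `T_q`, `q ∉ {ℓ', p}`. -/
theorem hE4 {p : ℕ} [NeZero p] (hp : p.Prime) {ℓ' : ℕ} (hℓ' : ℓ'.Prime) (hℓ'p : ℓ' ≠ p)
    (A' : ValuationSubring Qb) (hA' : A'.LiesOverPrime ℓ') (q : Nat.Primes)
    (hqℓ : (q : ℕ) ≠ ℓ') (hqp : (q : ℕ) ≠ p) (z : JZero p)
    (hz : reductionModL A' p z = 0) : reductionModL A' p (heckeOperatorBar p q z) = 0 :=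
  Fermat.Agent.MAZ.HeckeRed71.Final.hE4_of_g0 hp
    (fun {ℓ''} hℓ'' M _ hℓM A'' hA'' => reductionInputsModL_all hℓ'' M hℓM A'' hA'')
    hℓ' hℓ'p A' hA' q hqℓ hqp z hz

end Fermat.Agent.MAZ.HeckeRed71.G0All
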