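/-
MAZ programme (S15), brick F-E4' (`ker_red_hecke_stable`), helper71: **the abstract core.**

Setting: function fields `F`, `F'` over `K` (generic side) and `G`, `G'` over `k` (special side), two
embeddings `φ ψ : F →ₐ[K] F'` (degeneracy maps), their special twins `φt ψt : G →ₐ[k] G'`, and
place reductions `r : Place K F → Place k G`, `r' : Place K F' → Place k G'`.

* `eq_zero_on_degZero` : an additive map `Div F → (X →₀ ℤ)` killing a generating set of the principal
  divisors vanishes on `Div⁰ F` when `Pic⁰ F` is divisible (helper56's trick);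
* `mapDomain_pushforwardAlong` **(A)** : `r_* ψ_* = ψt_* r'_*` from the compatibility of `r'`, `r` with
  restriction along `ψ`, `ψt` (all inertia degrees `1`);
* `mapDomain_pullbackAlong` **(B)** : `r'_* φ^* = φt^* r_*` — WITH multiplicities — from the
  compatibility with restriction along `φ`, `φt`, the reduction property for integral pairs at both
  levels, (PGI), divisibility of `Pic⁰ F`, and `r` non-constant;
* `exists_principal_sub` **(D)** : if `r_* D` is principal then there is a principal divisor `P'` of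
  `F'` with `r_* (ψ_* (φ^* D - P')) = 0`.  Consequently the kernel of the reduction on `Pic⁰ F` is
  stable under the correspondence `ψ_* φ^*`.
Mathlib + Prelude only.
-/
import Mathlib
import Fermat.Prelude.Def_AlgebraicCurve_Correspondence

set_option autoImplicit false
set_option linter.unusedSectionVars false

noncomputable section

open AlgebraicCurve

namespace Fermat.Agent.MAZ.HeckeRed71.Abstract

/-! ### additive maps killing principal divisors -/

section Kill

variable {K F : Type*} [Field K] [Field F] [Algebra K F]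

/-- an integer divisible by every positive integer vanishes. -/
theorem int_eq_zero_of_forall_dvd {z : ℤ} (h : ∀ n : ℕ, 0 < n → (n : ℤ) ∣ z) : z = 0 := by
  by_contra hz
  have h1 := h (z.natAbs + 1) (Nat.succ_pos _)
  have h2 : ((z.natAbs + 1 : ℕ) : ℤ) ≤ |z| :=
    Int.le_of_dvd (abs_pos.mpr hz) ((dvd_abs _ _).mpr h1)
  have h3 : (z.natAbs : ℤ) = |z| := Int.natCast_natAbs z
  push_cast at h2
  omega

/-- an additive map killing a generating set of the principal divisors kills them all. -/
theorem eq_zero_on_principal {X : Type*} (Θ : Divisor K F →+ (X →₀ ℤ)) (S : Set (Divisor K F))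
    (hS : ∀ D ∈ S, Θ D = 0)
    (hgen : Divisor.principal (K := K) (F := F) ≤ AddSubgroup.closure S)
    {D : Divisor K F} (hD : D ∈ Divisor.principal (K := K) (F := F)) : Θ D = 0 := by
  have hD' := hgen hD
  clear hD
  induction hD' using AddSubgroup.closure_induction with
  | mem E hE => exact hS E hE
  | zero => exact map_zero Θ
  | add E E' _ _ hE hE' => rw [map_add, hE, hE', add_zero]
  | neg E _ hE => rw [map_neg, hE, neg_zero]

/-- … and, when `Pic⁰` is divisible, all divisors of degree zero. -/
theorem eq_zero_on_degZero {X : Type*} (Θ : Divisor K F →+ (X →₀ ℤ)) (S : Set (Divisor K F))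
    (hS : ∀ D ∈ S, Θ D = 0)
    (hgen : Divisor.principal (K := K) (F := F) ≤ AddSubgroup.closure S)
    (hdiv : ∀ (x : Pic0 K F) (n : ℕ), 0 < n → ∃ y : Pic0 K F, n • y = x)
    {D : Divisor K F} (hD : D ∈ Divisor.degZero (K := K) (F := F)) : Θ D = 0 := by
  ext Q
  rw [Finsupp.zero_apply]
  apply int_eq_zero_of_forall_dvd
  intro n hn
  obtain ⟨y, hy⟩ := hdiv (Pic0.mk ⟨D, hD⟩) n hn
  obtain ⟨E, rfl⟩ := Pic0.mk_surjective y
  have hmem : ((⟨D, hD⟩ : Divisor.degZero (K := K) (F := F)) - n • E :
      Divisor.degZero (K := K) (F := F)) ∈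
        (Divisor.principal (K := K) (F := F)).addSubgroupOf
          (Divisor.degZero (K := K) (F := F)) := by
    rw [← QuotientAddGroup.eq_iff_sub_mem, QuotientAddGroup.mk_nsmul]
    exact hy.symm
  rw [AddSubgroup.mem_addSubgroupOf, AddSubgroupClass.coe_sub, AddSubgroupClass.coe_nsmul] at hmem
  have h0 := eq_zero_on_principal Θ S hS hgen hmem
  rw [map_sub, map_nsmul, sub_eq_zero] at h0
  rw [h0, Finsupp.smul_apply, nsmul_eq_mul]
  exact dvd_mul_right _ _

end Kill

/-! ### the compatibilities -/

section Main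

variable {K F F' : Type*} [Field K] [Field F] [Field F'] [Algebra K F] [Algebra K F']
  [HasPrincipalDivisors K F']
variable {k G G' : Type*} [Field k] [Field G] [Field G'] [Algebra k G] [Algebra k G']
  [HasPrincipalDivisors k G']
variable {r : Place K F → Place k G} {r' : Place K F' → Place k G'}

/-- **(A)** `r_* ψ_* = ψt_* r'_*`. -/
theorem mapDomain_pushforwardAlong (ψ : F →ₐ[K] F') (hψ : ψ.toRingHom.IsIntegral)
    (ψt : G →ₐ[k] G') (hψt : ψt.toRingHom.IsIntegral)
    (hc : ∀ w : Place K F', (r' w).restrictAlong ψt hψt = r (w.restrictAlong ψ hψ))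
    (hin : ∀ w : Place K F', w.inertiaDegAlong ψ hψ = 1)
    (hint : ∀ Q' : Place k G', Q'.inertiaDegAlong ψt hψt = 1) (E : Divisor K F') :
    Finsupp.mapDomain r (Divisor.pushforwardAlong ψ hψ E) =
      Divisor.pushforwardAlong ψt hψt (Finsupp.mapDomain r' E) := by
  induction E using Finsupp.induction_linear with
  | zero => simp
  | add D E hD hE => rw [map_add, Finsupp.mapDomain_add, Finsupp.mapDomain_add, map_add, hD, hE]
  | single w n =>
    rw [Divisor.pushforwardAlong_single, Finsupp.mapDomain_single, Finsupp.mapDomain_single,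
      Divisor.pushforwardAlong_single, hc, hin, hint]

variable (φ : F →ₐ[K] F') (hφ : φ.toRingHom.IsIntegral)
  (φt : G →ₐ[k] G') (hφt : φt.toRingHom.IsIntegral)

/-- the defect `r'_* φ^* - φt^* r_*`. -/
def defect (r : Place K F → Place k G) (r' : Place K F' → Place k G') :
    Divisor K F →+ Divisor k G' :=
  (Finsupp.mapDomain.addMonoidHom r').comp (Divisor.pullbackAlong φ hφ) -
    (Divisor.pullbackAlong φt hφt).comp (Finsupp.mapDomain.addMonoidHom r)

theorem defect_apply (D : Divisor K F) :
    defect φ hφ φt hφt r r' D =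
      Finsupp.mapDomain r' (Divisor.pullbackAlong φ hφ D) -
        Divisor.pullbackAlong φt hφt (Finsupp.mapDomain r D) := rfl

/-- the divisor of `φ y` is the pull-back of the divisor of `y`. -/
theorem pullbackAlong_apply_eq_ord {D : Divisor K F} {y : F} (hD : ∀ v, D v = v.ord y)
    (w : Place K F') : Divisor.pullbackAlong φ hφ D w = w.ord (φ y) := by
  rw [Divisor.pullbackAlong_apply, hD, Place.ord_restrictAlong φ hφ]

/-- the defect kills the divisor of an integral pair. -/
theorem defect_eq_zero_of_pair {y : F} {yb : G}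
    (h1 : ∀ D : Divisor K F, (∀ v, D v = v.ord y) → ∀ Q, Finsupp.mapDomain r D Q = Q.ord yb)
    (h2 : ∀ D' : Divisor K F', (∀ w, D' w = w.ord (φ y)) →
      ∀ Q', Finsupp.mapDomain r' D' Q' = Q'.ord (φt yb))
    {D : Divisor K F} (hD : ∀ v, D v = v.ord y) : defect φ hφ φt hφt r r' D = 0 := by
  rw [defect_apply, sub_eq_zero]
  ext Q'
  rw [h2 _ (pullbackAlong_apply_eq_ord φ hφ hD) Q']
  have hk : ∀ Q, Finsupp.mapDomain r D Q = Q.ord yb := h1 D hD
  rw [pullbackAlong_apply_eq_ord φt hφt hk Q']

/-- support of the first term of the defect at a place. -/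
theorem restrictAlong_of_mapDomain_pullback_ne_zero
    (hc : ∀ w : Place K F', (r' w).restrictAlong φt hφt = r (w.restrictAlong φ hφ))
    (v : Place K F) (Q' : Place k G')
    (h : Finsupp.mapDomain r' (Divisor.pullbackAlong φ hφ (Finsupp.single v 1)) Q' ≠ 0) :
    Q'.restrictAlong φt hφt = r v := by
  classical
  have hmem : Q' ∈ (Finsupp.mapDomain r' (Divisor.pullbackAlong φ hφ (Finsupp.single v 1))).support :=
    Finsupp.mem_support_iff.mpr h
  have h1 := Finsupp.mapDomain_support hmem
  obtain ⟨w, hw, rfl⟩ := Finset.mem_image.mp h1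
  rw [hc]
  congr 1
  have hw' := Finsupp.mem_support_iff.mp hw
  rw [Divisor.pullbackAlong_apply, Finsupp.single_apply] at hw'
  by_contra hne
  rw [if_neg (fun h => hne h.symm), mul_zero] at hw'
  exact hw' rfl

/-- support of the second term of the defect at a place. -/
theorem restrictAlong_of_pullback_single_ne_zero (Q : Place k G) (Q' : Place k G')
    (h : Divisor.pullbackAlong φt hφt (Finsupp.single Q 1) Q' ≠ 0) :
    Q'.restrictAlong φt hφt = Q := by
  classical
  rw [Divisor.pullbackAlong_apply, Finsupp.single_apply] at h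
  by_contra hne
  rw [if_neg (fun h' => hne h'.symm), mul_zero] at h
  exact h rfl

/-- **(B)** `r'_* φ^* = φt^* r_*`, with multiplicities. -/
theorem mapDomain_pullbackAlong
    (hc : ∀ w : Place K F', (r' w).restrictAlong φt hφt = r (w.restrictAlong φ hφ))
    (I : Set (F × G))
    (hI : ∀ p ∈ I, ∀ D : Divisor K F, (∀ v, D v = v.ord p.1) →
      ∀ Q, Finsupp.mapDomain r D Q = Q.ord p.2)
    (hI' : ∀ p ∈ I, ∀ D' : Divisor K F', (∀ w, D' w = w.ord (φ p.1)) →
      ∀ Q', Finsupp.mapDomain r' D' Q' = Q'.ord (φt p.2))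
    (hgen : Divisor.principal (K := K) (F := F) ≤
      AddSubgroup.closure {D | ∃ p ∈ I, ∀ v : Place K F, D v = v.ord p.1})
    (hdiv : ∀ (x : Pic0 K F) (n : ℕ), 0 < n → ∃ y : Pic0 K F, n • y = x)
    (hdeg : ∀ v : Place K F, v.deg = 1)
    (hnc : ∃ v₁ v₂ : Place K F, r v₁ ≠ r v₂) (D : Divisor K F) :
    Finsupp.mapDomain r' (Divisor.pullbackAlong φ hφ D) =
      Divisor.pullbackAlong φt hφt (Finsupp.mapDomain r D) := by
  classical
  -- the defect vanishes on `Div⁰`
  have h0 : ∀ E ∈ Divisor.degZero (K := K) (F := F), defect φ hφ φt hφt r r' E = 0 := by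
    intro E hE
    refine eq_zero_on_degZero (defect φ hφ φt hφt r r') _ ?_ hgen hdiv hE
    rintro E' ⟨p, hp, hE'⟩
    exact defect_eq_zero_of_pair φ hφ φt hφt (hI p hp) (hI' p hp) hE'
  -- hence it is constant on places
  have hconst : ∀ v₁ v₂ : Place K F,
      defect φ hφ φt hφt r r' (Finsupp.single v₁ 1) =
        defect φ hφ φt hφt r r' (Finsupp.single v₂ 1) := by
    intro v₁ v₂
    have hmem : (Finsupp.single v₁ (1 : ℤ) - Finsupp.single v₂ 1 : Divisor K F) ∈
        Divisor.degZero (K := K) (F := F) := by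
      rw [Divisor.mem_degZero, map_sub, Divisor.degree_single, Divisor.degree_single, hdeg, hdeg,
        sub_self]
    have := h0 _ hmem
    rwa [map_sub, sub_eq_zero] at this
  -- the support of the defect at `v` lies over `r v`
  have hsupp : ∀ (v : Place K F) (Q' : Place k G'),
      defect φ hφ φt hφt r r' (Finsupp.single v 1) Q' ≠ 0 → Q'.restrictAlong φt hφt = r v := by
    intro v Q' hne
    rw [defect_apply, Finsupp.sub_apply, Finsupp.mapDomain_single] at hne
    by_cases h1 : Finsupp.mapDomain r' (Divisor.pullbackAlong φ hφ (Finsupp.single v 1)) Q' = 0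
    · rw [h1, zero_sub, neg_ne_zero] at hne
      exact restrictAlong_of_pullback_single_ne_zero φt hφt (r v) Q' hne
    · exact restrictAlong_of_mapDomain_pullback_ne_zero φ hφ φt hφt hc v Q' h1
  -- so it vanishes at every place
  have hzero : ∀ v : Place K F, defect φ hφ φt hφt r r' (Finsupp.single v 1) = 0 := by
    obtain ⟨v₁, v₂, hv⟩ := hnc
    intro v
    ext Q'
    rw [Finsupp.zero_apply]
    by_contra hne
    have e1 := hsupp v₁ Q' (by rw [hconst v₁ v]; exact hne)
    have e2 := hsupp v₂ Q' (by rw [hconst v₂ v]; exact hne)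
    exact hv (e1.symm.trans e2)
  -- conclusion
  have hall : ∀ E : Divisor K F, defect φ hφ φt hφt r r' E = 0 := by
    intro E
    induction E using Finsupp.induction_linear with
    | zero => exact map_zero _
    | add D E hD hE => rw [map_add, hD, hE, add_zero]
    | single v n =>
      have h1 : Finsupp.single v n = n • Finsupp.single v (1 : ℤ) := by
        rw [Finsupp.smul_single, smul_eq_mul, mul_one]
      rw [h1, map_zsmul, hzero v, smul_zero]
  have := hall D
  rwa [defect_apply, sub_eq_zero] at this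

/-- **(D)** if `r_* D` is principal, then `φ^* D` can be corrected by a principal divisor of `F'`
so that `r_* ψ_*` of the difference vanishes exactly. -/
theorem exists_principal_sub (ψ : F →ₐ[K] F') (hψ : ψ.toRingHom.IsIntegral)
    (ψt : G →ₐ[k] G') (hψt : ψt.toRingHom.IsIntegral)
    (hB : ∀ D : Divisor K F, Finsupp.mapDomain r' (Divisor.pullbackAlong φ hφ D) =
      Divisor.pullbackAlong φt hφt (Finsupp.mapDomain r D))
    (hA : ∀ E : Divisor K F', Finsupp.mapDomain r (Divisor.pushforwardAlong ψ hψ E) =
      Divisor.pushforwardAlong ψt hψt (Finsupp.mapDomain r' E))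
    (hlift : ∀ h : G', h ≠ 0 → ∃ P' : Divisor K F', P' ∈ Divisor.principal (K := K) (F := F') ∧
      ∀ Q', Finsupp.mapDomain r' P' Q' = Q'.ord h)
    {D : Divisor K F} (hD : Finsupp.mapDomain r D ∈ Divisor.principal (K := k) (F := G)) :
    ∃ P' : Divisor K F', P' ∈ Divisor.principal (K := K) (F := F') ∧
      Finsupp.mapDomain r (Divisor.pushforwardAlong ψ hψ (Divisor.pullbackAlong φ hφ D - P')) = 0 := by
  obtain ⟨g, hg0, hg⟩ := hD
  have hg' : φt g ≠ 0 := by
    intro h0
    exact hg0 (φt.toRingHom.injective (by rw [AlgHom.toRingHom_eq_coe, RingHom.coe_coe, h0, map_zero]))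
  obtain ⟨P', hP', hP'r⟩ := hlift (φt g) hg'
  refine ⟨P', hP', ?_⟩
  rw [hA]
  have h0 : Finsupp.mapDomain r' (Divisor.pullbackAlong φ hφ D - P') = 0 := by
    rw [← Finsupp.mapDomain.addMonoidHom_apply, map_sub, Finsupp.mapDomain.addMonoidHom_apply,
      Finsupp.mapDomain.addMonoidHom_apply, sub_eq_zero, hB]
    ext Q'
    rw [hP'r Q', pullbackAlong_apply_eq_ord φt hφt hg Q']
  rw [h0, map_zero]

end Main

end Fermat.Agent.MAZ.HeckeRed71.Abstract
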