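/-
MAZ programme (S15), brick F-E4' (helper71): **the kernel of the reduction map is stable under
`T_l`**, from the compatibility of the place reductions at levels `N` and `N l` with restriction
along the two degeneracy maps.

`A` a valuation subring of `ℚ̄` over the prime `ℓ`, `κ` its residue field, `N` a level prime to `ℓ`,
`l ≠ ℓ` a prime not dividing `N`.  Given

* `h : ReductionInputsModL A N`, with its place reduction `r := placeReductionModL h`;
* `r'` a place reduction at level `N l`;
* `hcα`, `hcβ`: `(r' w)|_{ᾱ} = r (w|_α)` and `(r' w)|_{β̄} = r (w|_β)`;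
* `hnc`: `r` is not constant;

we prove `reductionModL A N z = 0 → reductionModL A N (T_l z) = 0`.
-/
import Mathlib
import Fermat.Agent.MAZ.HeckeRed71.Abstract
import Fermat.Agent.T1B.Brandt27.DegreeC
import Fermat.Agent.T1B.Hecke87.HPDCharP
import Fermat.Agent.RED.TOP.LiftRatio2
import Fermat.Agent.RED.TOP.FbarFacts20
import Fermat.Agent.ES.HECKE.PointFormula28
import Fermat.Agent.ES.HECKE.InputsMain19
import Fermat.Agent.ES.HECKE.InputsFinal15
import Fermat.Agent.ES.RED.GaussUnit25
import Fermat.Agent.ES.KRON.KronInst10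
import Fermat.Agent.MW.Div73
import Fermat.Prelude.Def_ModularCurve_HeckeModule

set_option autoImplicit false
set_option linter.unusedSectionVars false
set_option linter.style.haveILetI false
set_option synthInstance.maxHeartbeats 400000

noncomputable section

open HahnSeries ModularCurve IntermediateField AlgebraicCurve

namespace Fermat.Agent.MAZ.HeckeRed71.Main

open Fermat.Agent.MAZ.HeckeRed71.Abstract
open Fermat.Agent.T1B.Brandt27 Fermat.Agent.ES.HECKE Fermat.Agent.RED.TOP
open Fermat.Agent.ES.RED Fermat.Agent.ES.KRON Fermat.Agent.X0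

local notation "Qb" => AlgebraicClosure ℚ

/-! ### generalities -/

section Gen

variable {K F F' : Type*} [Field K] [Field F] [Field F'] [Algebra K F] [Algebra K F']

/-- inertia degrees along `ψ` are one when all places have degree one. -/
theorem inertiaDegAlong_eq_one_of_deg (ψ : F →ₐ[K] F') (hψ : ψ.toRingHom.IsIntegral)
    (hdegF : ∀ v : Place K F, v.deg = 1) (hdegF' : ∀ w : Place K F', w.deg = 1)
    (w : Place K F') : w.inertiaDegAlong ψ hψ = 1 := by
  letI := algebraAlong ψ
  haveI := isScalarTower_along ψ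
  haveI := isIntegral_along ψ hψ
  have h := w.deg_restrict_mul_inertiaDeg (F := F)
  rw [hdegF, hdegF' w, one_mul] at h
  exact h

end Gen

/-! ### the setting -/

section Setting

variable {ℓ : ℕ} [Fact ℓ.Prime] (A : ValuationSubring Qb) (hA : A.LiesOverPrime ℓ)
  (N l : ℕ) [NeZero N] [NeZero l]

local notation "κ" => IsLocalRing.ResidueField A
local notation "π" => IsLocalRing.residue A

/-- the integral pairs at level `N`. -/
def pairs : Set (↥(modularFunctionFieldBar N) × ↥(modularFunctionFieldFullC κ N)) :=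
  {p | ∃ (y : LaurentSeries A) (hy : coeffMap A.subtype y ∈ modularFunctionFieldBar N)
      (hyk : coeffMap π y ∈ modularFunctionFieldFullC κ N), coeffMap π y ≠ 0 ∧
        p = (⟨coeffMap A.subtype y, hy⟩, ⟨coeffMap π y, hyk⟩)}

variable {A N}

theorem pairs_spec {r : Place Qb (modularFunctionFieldBar N) →
      Place κ (modularFunctionFieldFullC κ N)} (hr : IsPlaceReductionModL A N r)
    (p : ↥(modularFunctionFieldBar N) × ↥(modularFunctionFieldFullC κ N)) (hp : p ∈ pairs A N)
    (D : Divisor Qb (modularFunctionFieldBar N)) (hD : ∀ v, D v = v.ord p.1)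
    (Q : Place κ (modularFunctionFieldFullC κ N)) : Finsupp.mapDomain r D Q = Q.ord p.2 := by
  obtain ⟨y, hy, hyk, hne, rfl⟩ := hp
  exact hr.2 y hy hyk hne D hD Q

theorem closure_pairs (hgen : PrincipalGeneratedByIntegral A π N) :
    Divisor.principal (K := Qb) (F := modularFunctionFieldBar N) ≤
      AddSubgroup.closure {D | ∃ p ∈ pairs A N,
        ∀ v : Place Qb (modularFunctionFieldBar N), D v = v.ord p.1} := by
  refine hgen.trans (AddSubgroup.closure_mono ?_)
  rintro D ⟨y, hy, hyk, hne, hD⟩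
  exact ⟨(⟨coeffMap A.subtype y, hy⟩, ⟨coeffMap π y, hyk⟩), ⟨y, hy, hyk, hne, rfl⟩, hD⟩

variable {l}

/-- integral pairs are carried by `β` to integral pairs at level `N l`. -/
theorem pairs_beta {r' : Place Qb (modularFunctionFieldBar (N * l)) →
      Place κ (modularFunctionFieldFullC κ (N * l))} (hr' : IsPlaceReductionModL A (N * l) r')
    (p : ↥(modularFunctionFieldBar N) × ↥(modularFunctionFieldFullC κ N)) (hp : p ∈ pairs A N)
    (D' : Divisor Qb (modularFunctionFieldBar (N * l)))
    (hD' : ∀ w, D' w = w.ord (heckeBetaBar Qb N l p.1))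
    (Q' : Place κ (modularFunctionFieldFullC κ (N * l))) :
    Finsupp.mapDomain r' D' Q' = Q'.ord (betaC κ N l p.2) := by
  obtain ⟨y, hy, hyk, hne, rfl⟩ := hp
  have e1 : coeffMap A.subtype (qExpand A l y) = qExpand Qb l (coeffMap A.subtype y) :=
    coeffMap_qExpand _ l y
  have e2 : coeffMap π (qExpand A l y) = qExpand κ l (coeffMap π y) := coeffMap_qExpand _ l y
  have hy' : coeffMap A.subtype (qExpand A l y) ∈ modularFunctionFieldBar (N * l) := by
    rw [e1]
    exact (heckeBetaBar Qb N l ⟨coeffMap A.subtype y, hy⟩).2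
  have hyk' : coeffMap π (qExpand A l y) ∈ modularFunctionFieldFullC κ (N * l) := by
    rw [e2]
    exact (betaC κ N l ⟨coeffMap π y, hyk⟩).2
  have hne' : coeffMap π (qExpand A l y) ≠ 0 := by
    rw [e2]
    exact Fermat.Agent.IG.PR.ThetaV1.qExpand_ne_zero l hne
  have h1 : (⟨coeffMap A.subtype (qExpand A l y), hy'⟩ : ↥(modularFunctionFieldBar (N * l))) =
      heckeBetaBar Qb N l ⟨coeffMap A.subtype y, hy⟩ := Subtype.ext e1
  have h2 : (⟨coeffMap π (qExpand A l y), hyk'⟩ : ↥(modularFunctionFieldFullC κ (N * l))) =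
      betaC κ N l ⟨coeffMap π y, hyk⟩ := Subtype.ext e2
  have := hr'.2 (qExpand A l y) hy' hyk' hne' D' (fun w => by rw [hD' w, h1]) Q'
  rw [this, h2]

/-- every nonzero function on the special fibre is the reduction of a principal divisor. -/
theorem exists_principal_lift {M : ℕ} [NeZero M]
    {r' : Place Qb (modularFunctionFieldBar M) → Place κ (modularFunctionFieldFullC κ M)}
    (hr' : IsPlaceReductionModL A M r')
    (g : ↥(modularFunctionFieldFullC κ M)) (hg : g ≠ 0) :
    ∃ P' : Divisor Qb (modularFunctionFieldBar M),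
      P' ∈ Divisor.principal (K := Qb) (F := modularFunctionFieldBar M) ∧
        ∀ Q', Finsupp.mapDomain r' P' Q' = Q'.ord g := by
  obtain ⟨G₁, G₂, h1, h2, h1k, h2k, hne1, hne2, hgeq⟩ :=
    LiftRatio2.exists_lift_ratio_modL A M (g : LaurentSeries κ) g.2
      (fun h0 => hg (Subtype.ext h0))
  have hG1 : (⟨coeffMap A.subtype G₁, h1⟩ : ↥(modularFunctionFieldBar M)) ≠ 0 := by
    intro h0
    apply hne1
    have h3 : coeffMap A.subtype G₁ = 0 := congrArg Subtype.val h0
    have h4 : G₁ = 0 := by
      ext n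
      have := congrArg (fun x : LaurentSeries Qb => x.coeff n) h3
      simpa [coeffMap_coeff] using this
    rw [h4, map_zero]
  have hG2 : (⟨coeffMap A.subtype G₂, h2⟩ : ↥(modularFunctionFieldBar M)) ≠ 0 := by
    intro h0
    apply hne2
    have h3 : coeffMap A.subtype G₂ = 0 := congrArg Subtype.val h0
    have h4 : G₂ = 0 := by
      ext n
      have := congrArg (fun x : LaurentSeries Qb => x.coeff n) h3
      simpa [coeffMap_coeff] using this
    rw [h4, map_zero]
  haveI := FbarFacts20.hasPrincipalDivisors_bar M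
  obtain ⟨D₁, hD₁, -⟩ := HasPrincipalDivisors.exists_divisor (K := Qb) _ hG1
  obtain ⟨D₂, hD₂, -⟩ := HasPrincipalDivisors.exists_divisor (K := Qb) _ hG2
  refine ⟨D₁ - D₂, AddSubgroup.sub_mem _ ⟨_, hG1, hD₁⟩ ⟨_, hG2, hD₂⟩, fun Q' => ?_⟩
  have e1 := hr'.2 G₁ h1 h1k hne1 D₁ hD₁ Q'
  have e2 := hr'.2 G₂ h2 h2k hne2 D₂ hD₂ Q'
  rw [Finsupp.mapDomain_sub, Finsupp.sub_apply, e1, e2]
  have hk1 : (⟨coeffMap π G₁, h1k⟩ : ↥(modularFunctionFieldFullC κ M)) ≠ 0 :=
    fun h0 => hne1 (congrArg Subtype.val h0)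
  have hk2 : (⟨coeffMap π G₂, h2k⟩ : ↥(modularFunctionFieldFullC κ M)) ≠ 0 :=
    fun h0 => hne2 (congrArg Subtype.val h0)
  have hgq : g = (⟨coeffMap π G₁, h1k⟩ : ↥(modularFunctionFieldFullC κ M)) /
      ⟨coeffMap π G₂, h2k⟩ := Subtype.ext hgeq
  rw [hgq, div_eq_mul_inv, Q'.ord_mul hk1 (inv_ne_zero hk2), Q'.ord_inv, sub_eq_add_neg]

end Setting

/-! ### the theorem -/

section Theorem

variable {ℓ : ℕ} [Fact ℓ.Prime] {A : ValuationSubring Qb} (hA : A.LiesOverPrime ℓ)
  {N l : ℕ} [NeZero N] [NeZero l] (hl : l.Prime) (hlN : ¬ l ∣ N) (hℓN : ¬ ℓ ∣ N) (hℓl : ℓ ≠ l)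

local notation "κ" => IsLocalRing.ResidueField A
local notation "π" => IsLocalRing.residue A

include hA hℓN hℓl in
/-- **F-E4', conditional form.** -/
theorem reductionModL_hecke_eq_zero
    (h : ReductionInputsModL A N)
    {r' : Place Qb (modularFunctionFieldBar (N * l)) →
      Place κ (modularFunctionFieldFullC κ (N * l))} (hr' : IsPlaceReductionModL A (N * l) r')
    (hαt : (alphaC κ N l).toRingHom.IsIntegral) (hβt : (betaC κ N l).toRingHom.IsIntegral)
    (hcα : ∀ w : Place Qb (modularFunctionFieldBar (N * l)),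
      (r' w).restrictAlong (alphaC κ N l) hαt =
        placeReductionModL h (w.restrictAlong (heckeAlphaBar Qb N l)
          (AlongDegree25.heckeAlphaBarIntegral Qb N l hl hlN)))
    (hcβ : ∀ w : Place Qb (modularFunctionFieldBar (N * l)),
      (r' w).restrictAlong (betaC κ N l) hβt =
        placeReductionModL h (w.restrictAlong (heckeBetaBar Qb N l)
          (AlongDegree25.heckeBetaBarIntegral Qb N l hl hlN)))
    (hnc : ∃ v₁ v₂ : Place Qb (modularFunctionFieldBar N),
      placeReductionModL h v₁ ≠ placeReductionModL h v₂)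
    (z : JZero N) (hz : reductionModL A N z = 0) :
    reductionModL A N (heckeOperatorAlong Qb N l z) = 0 := by
  haveI : IsAlgClosed κ := KronInst10.isAlgClosed_residueField A
  haveI : CharP κ ℓ := KronInst10.charP_residueField A (Fact.out : ℓ.Prime) hA
  have hℓNl : ¬ ℓ ∣ N * l := not_dvd_mul' (Fact.out : ℓ.Prime) hl hℓN hℓl
  haveI := InputsMain19.hasPrincipalDivisors_level N l
  haveI : HasPrincipalDivisors κ ↥(modularFunctionFieldFullC κ (N * l)) :=
    Fermat.Agent.T1B.Hecke87.HPDCharP.hasPrincipalDivisors_fullC κ ℓ (N * l) hℓNl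
  set r := placeReductionModL h with hrdef
  have hr : IsPlaceReductionModL A N r := isPlaceReductionModL_placeReductionModL h
  have hgen : PrincipalGeneratedByIntegral A π N :=
    GaussUnit25.principalGeneratedByIntegral A ℓ hA N hℓN
  have hα := AlongDegree25.heckeAlphaBarIntegral Qb N l hl hlN
  have hβ := AlongDegree25.heckeBetaBarIntegral Qb N l hl hlN
  have hFI := InputsMain19.fundamentalIdentityAlong_beta N l hl hlN
  have hfin := AlongDegree25.finiteAlong_alpha Qb N l hl hlN
  have hNF := InputsFinal15.normFormulaAlong_alpha N l hl hlN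
  -- degrees
  have hdegN : ∀ v : Place Qb (modularFunctionFieldBar N), v.deg = 1 :=
    FbarFacts20.deg_eq_one_bar N
  have hdegNl : ∀ v : Place Qb (modularFunctionFieldBar (N * l)), v.deg = 1 :=
    FbarFacts20.deg_eq_one_bar (N * l)
  have hdegC : ∀ Q : Place κ (modularFunctionFieldFullC κ N), Q.deg = 1 :=
    fun Q => FF.deg_eq_one (Fermat.Agent.T1B.Hecke87.CharPX0.isGen_jC κ ℓ N hℓN) Q
  have hdegCl : ∀ Q : Place κ (modularFunctionFieldFullC κ (N * l)), Q.deg = 1 :=
    fun Q => FF.deg_eq_one (Fermat.Agent.T1B.Hecke87.CharPX0.isGen_jC κ ℓ (N * l) hℓNl) Q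
  -- (A) and (B)
  have hAeq := mapDomain_pushforwardAlong (r := r) (r' := r') (heckeAlphaBar Qb N l) hα
    (alphaC κ N l) hαt hcα
    (inertiaDegAlong_eq_one_of_deg _ hα hdegN hdegNl)
    (inertiaDegAlong_eq_one_of_deg _ hαt hdegC hdegCl)
  have hdiv : ∀ (x : Pic0 Qb (modularFunctionFieldBar N)) (n : ℕ), 0 < n →
      ∃ y : Pic0 Qb (modularFunctionFieldBar N), n • y = x :=
    fun x n hn => Fermat.Agent.MW.Div73.jzero_divisible N n hn.ne' x
  have hBeq := mapDomain_pullbackAlong (r := r) (r' := r') (heckeBetaBar Qb N l) hβ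
    (betaC κ N l) hβt hcβ (pairs A N) (pairs_spec hr) (pairs_beta hr')
    (closure_pairs hgen) hdiv hdegN hnc
  -- unfold
  obtain ⟨D, rfl⟩ := Pic0.mk_surjective z
  rw [reductionModL_mk h] at hz
  have hzD : Finsupp.mapDomain r (D : Divisor Qb (modularFunctionFieldBar N)) ∈
      Divisor.principal (K := κ) (F := modularFunctionFieldFullC κ N) := by
    have := (QuotientAddGroup.eq_zero_iff _).mp hz
    rwa [AddSubgroup.mem_addSubgroupOf] at this
  obtain ⟨P', hP', hP'0⟩ := exists_principal_sub (r := r) (r' := r')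
    (heckeBetaBar Qb N l) hβ (betaC κ N l) hβt (heckeAlphaBar Qb N l) hα (alphaC κ N l) hαt
    hBeq hAeq (exists_principal_lift hr') hzD
  rw [PointFormula28.heckeOperatorAlong_mk hα hβ hFI hfin hNF D, reductionModL_mk h]
  refine (QuotientAddGroup.eq_zero_iff _).mpr ?_
  rw [AddSubgroup.mem_addSubgroupOf, coe_reductionDegZeroAlong, Pic0.coe_degZeroCorrespondence,
    Divisor.correspondence_apply]
  have e1 : Finsupp.mapDomain r (Divisor.pushforwardAlong (heckeAlphaBar Qb N l) hα
      (Divisor.pullbackAlong (heckeBetaBar Qb N l) hβ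
        (D : Divisor Qb (modularFunctionFieldBar N)))) =
      Finsupp.mapDomain r (Divisor.pushforwardAlong (heckeAlphaBar Qb N l) hα P') := by
    rw [map_sub, Finsupp.mapDomain_sub, sub_eq_zero] at hP'0
    exact hP'0
  rw [e1]
  exact hr.mapDomain_mem_principal hgen
    (Divisor.isPrincipal_pushforwardAlong _ hα hfin hNF hP')

end Theorem

end Fermat.Agent.MAZ.HeckeRed71.Main
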