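/-
MAZ programme (S15), brick F-E4' (helper71): **separability of `k_{Nl}` over `β̄(k_N)`** in
characteristic `p` (`β̄ = (q ↦ q^l)`, `l ≠ p` prime, `l ∤ N`, `p ∤ N`), the twin of
`T1B/Brandt27/DegreeC.isSeparable_alphaC`.

Route: `x := j̃(q^l)` has `q`-order `-l`, prime to `p`, so every element of `κ((q))` algebraic over
`κ(x)` is separable over `κ(x)` (`RED/PUR/SepLaurent25`); `k_{Nl}` is finite over `κ(x)`
(`relfinrank_betaC`), and `κ(x) = β̄(κ(j̃)) ⊂ β̄(k_N)`.
-/
import Mathlib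
import Fermat.Agent.T1B.Brandt27.DegreeC

set_option autoImplicit false
set_option linter.unusedSectionVars false
set_option linter.style.haveILetI false

noncomputable section

open HahnSeries ModularCurve IntermediateField AlgebraicCurve

namespace Fermat.Agent.MAZ.HeckeRed71.SepBeta

open Fermat.Agent.IG Fermat.Agent.RED.PUR Fermat.Agent.ES.HECKE Fermat.Agent.T1B.Brandt27

variable (κ : Type) [Field κ] (p : ℕ) [Fact p.Prime] [CharP κ p]
  (N l : ℕ) [NeZero N] [NeZero l]

/-- the `q`-order of `j̃(q^l)`. -/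
theorem order_qExpand_jqModC : (qExpand κ l (jqModC κ)).order = -(l : ℤ) := by
  rw [Fermat.Agent.IG.PR.ThetaV1.order_qExpand, Fermat.Agent.IG.AN.ModPoly3.order_jqModC]
  ring

theorem qExpand_jqModC_ne_zero : qExpand κ l (jqModC κ) ≠ 0 := by
  intro h0
  have h1 := order_qExpand_jqModC κ l
  rw [h0, order_zero] at h1
  have : (l : ℤ) ≠ 0 := by exact_mod_cast NeZero.ne l
  omega

theorem isCoprime_order (hl : l.Prime) (hpl : p ≠ l) :
    IsCoprime (qExpand κ l (jqModC κ)).order (p : ℤ) := by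
  rw [order_qExpand_jqModC]
  have h1 : Nat.Coprime l p := (Nat.coprime_primes hl (Fact.out : p.Prime)).mpr (Ne.symm hpl)
  exact (Nat.isCoprime_iff_coprime.mpr h1).neg_left

theorem map_simple :
    (κ⟮jqModC κ⟯).map (qExpandAlgHomC κ l) = κ⟮qExpand κ l (jqModC κ)⟯ := by
  rw [adjoin_map, Set.image_singleton, qExpandAlgHomC_apply]

theorem simple_le_map :
    κ⟮qExpand κ l (jqModC κ)⟯ ≤ (modularFunctionFieldFullC κ N).map (qExpandAlgHomC κ l) := by
  rw [← map_simple]
  exact IntermediateField.map_mono _ (simple_le_fullC' κ N)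

theorem simple_le_full : κ⟮qExpand κ l (jqModC κ)⟯ ≤ modularFunctionFieldFullC κ (N * l) :=
  (simple_le_map κ N l).trans (full_degeneracyC_map_le κ N l)

/-- `[k_{Nl} : κ(j̃(q^l))] = ψ(N) (l + 1)`. -/
theorem relfinrank_simple (hl : l.Prime) (hlN : ¬ l ∣ N) (hpN : ¬ p ∣ N) (hpl : p ≠ l) :
    relfinrank κ⟮qExpand κ l (jqModC κ)⟯ (modularFunctionFieldFullC κ (N * l)) =
      dedekindPsi N * (l + 1) := by
  have hψN := DegBaseChange25.relfinrank_fullC_eq_psi_of_charP p κ N hpN
  have h3 : relfinrank κ⟮qExpand κ l (jqModC κ)⟯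
      ((modularFunctionFieldFullC κ N).map (qExpandAlgHomC κ l)) = dedekindPsi N := by
    rw [← map_simple, relfinrank_map_map, hψN]
  have h4 := relfinrank_mul_relfinrank (simple_le_map κ N l) (full_degeneracyC_map_le κ N l)
  rw [h3, relfinrank_betaC κ p N l hl hlN hpN hpl] at h4
  exact h4.symm

/-- every element of `k_{Nl}` is algebraic over `κ(j̃(q^l))`. -/
theorem isAlgebraic_of_mem_fullC (hl : l.Prime) (hlN : ¬ l ∣ N) (hpN : ¬ p ∣ N) (hpl : p ≠ l)
    {y : LaurentSeries κ} (hy : y ∈ modularFunctionFieldFullC κ (N * l)) :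
    IsAlgebraic κ⟮qExpand κ l (jqModC κ)⟯ y := by
  have hle := simple_le_full κ N l
  have hpos : 0 < relfinrank κ⟮qExpand κ l (jqModC κ)⟯ (modularFunctionFieldFullC κ (N * l)) := by
    rw [relfinrank_simple κ p N l hl hlN hpN hpl]
    exact Nat.mul_pos (Fermat.Agent.X0.GNPsi.gnp_dedekindPsi_pos (NeZero.ne N)) (Nat.succ_pos l)
  rw [relfinrank_eq_finrank_of_le hle] at hpos
  haveI : FiniteDimensional κ⟮qExpand κ l (jqModC κ)⟯ (extendScalars hle) :=
    FiniteDimensional.of_finrank_pos hpos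
  have hint : IsIntegral κ⟮qExpand κ l (jqModC κ)⟯
      (⟨y, (mem_extendScalars hle).mpr hy⟩ : extendScalars hle) :=
    IsIntegral.of_finite _ _
  have h2 := hint.map (IsScalarTower.toAlgHom κ⟮qExpand κ l (jqModC κ)⟯ (extendScalars hle)
    (LaurentSeries κ))
  exact h2.isAlgebraic

/-- every element of `k_{Nl}` is separable over `κ(j̃(q^l))`. -/
theorem isSeparable_of_mem_fullC [PerfectField κ]
    (hl : l.Prime) (hlN : ¬ l ∣ N) (hpN : ¬ p ∣ N) (hpl : p ≠ l)
    {y : LaurentSeries κ} (hy : y ∈ modularFunctionFieldFullC κ (N * l)) :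
    IsSeparable κ⟮qExpand κ l (jqModC κ)⟯ y :=
  SepLaurent25.isSeparable_of_isAlgebraic p (qExpand_jqModC_ne_zero κ l)
    (isCoprime_order κ p l hl hpl) (isAlgebraic_of_mem_fullC κ p N l hl hlN hpN hpl hy)

/-- Generic tool (any `x`): an element `y` of `B` whose image in `κ((q))` is separable over `κ(x)`
is separable over `A` along any `φ : A → B` through which the inclusion `κ(x) ⊂ B` factors. -/
theorem isSeparable_along_of_factor (x : LaurentSeries κ)
    (A B : IntermediateField κ (LaurentSeries κ)) (φ : ↥A →ₐ[κ] ↥B)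
    (ι : ↥(κ⟮x⟯) →+* ↥A)
    (hι : ∀ c : ↥(κ⟮x⟯), ((φ (ι c) : ↥B) : LaurentSeries κ) = (c : LaurentSeries κ))
    (y : ↥B) (hy : IsSeparable κ⟮x⟯ (y : LaurentSeries κ)) :
    letI := algebraAlong φ
    IsSeparable ↥A y := by
  letI := algebraAlong φ
  set g := minpoly κ⟮x⟯ (y : LaurentSeries κ) with hg
  have hgsep : g.Separable := hy
  have hg' : (g.map ι).Separable := hgsep.map
  have hroot : Polynomial.aeval y (g.map ι) = 0 := by
    apply Subtype.val_injective
    have h1 : ((Polynomial.aeval y (g.map ι) : ↥B) : LaurentSeries κ) =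
        Polynomial.aeval (y : LaurentSeries κ) g := by
      rw [Polynomial.aeval_def, Polynomial.eval₂_map, Polynomial.aeval_def]
      have h2 : (B.val : ↥B →+* LaurentSeries κ).comp ((algebraMap ↥A ↥B).comp ι) =
          algebraMap ↥(κ⟮x⟯) (LaurentSeries κ) :=
        RingHom.ext fun c => hι c
      rw [← h2]
      exact (Polynomial.hom_eval₂ g ((algebraMap ↥A ↥B).comp ι) (B.val : ↥B →+* LaurentSeries κ)
        y)
    rw [h1, hg, minpoly.aeval]
    rfl
  exact hg'.of_dvd (minpoly.dvd _ _ hroot)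

/-- the section `κ(j̃(q^l)) → k_N` of `β̄`. -/
def iota : ↥(κ⟮qExpand κ l (jqModC κ)⟯) →+* ↥(modularFunctionFieldFullC κ N) :=
  ((IntermediateField.inclusion (simple_le_fullC' κ N)).comp
    (((equivMap (κ⟮jqModC κ⟯) (qExpandAlgHomC κ l)).symm.toAlgHom).comp
      (equivOfEq (map_simple κ l).symm).toAlgHom)).toRingHom

theorem betaC_iota (c : ↥(κ⟮qExpand κ l (jqModC κ)⟯)) :
    ((betaC κ N l (iota κ N l c) : ↥(modularFunctionFieldFullC κ (N * l))) : LaurentSeries κ) =
      (c : LaurentSeries κ) := by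
  rw [coe_betaC]
  have h1 : ((iota κ N l c : ↥(modularFunctionFieldFullC κ N)) : LaurentSeries κ) =
      (((equivMap (κ⟮jqModC κ⟯) (qExpandAlgHomC κ l)).symm
        (equivOfEq (map_simple κ l).symm c) : ↥(κ⟮jqModC κ⟯)) : LaurentSeries κ) := rfl
  rw [h1, ← qExpandAlgHomC_apply, ← coe_equivMap_apply, AlgEquiv.apply_symm_apply]
  rfl

/-- **`k_{Nl}` is separable over `k_N` along `β̄`** (`κ` perfect). -/
theorem isSeparable_betaC [PerfectField κ]
    (hl : l.Prime) (hlN : ¬ l ∣ N) (hpN : ¬ p ∣ N) (hpl : p ≠ l) :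
    letI := algebraAlong (betaC κ N l)
    Algebra.IsSeparable ↥(modularFunctionFieldFullC κ N)
      ↥(modularFunctionFieldFullC κ (N * l)) := by
  letI := algebraAlong (betaC κ N l)
  refine ⟨fun y => ?_⟩
  exact isSeparable_along_of_factor κ _ _ _ (betaC κ N l) (iota κ N l) (betaC_iota κ N l) y
    (isSeparable_of_mem_fullC κ p N l hl hlN hpN hpl y.2)

end Fermat.Agent.MAZ.HeckeRed71.SepBeta
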