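/-
MAZ programme (S15), brick F-E4' (helper71): **compatibility of the place reductions at levels `N`
and `N l` with restriction along a degeneracy map** `φ ∈ {α, β}` (generic side), `φt ∈ {ᾱ, β̄}`
(special side), by helper56's descent `G0Red56/Descent.exists_descent`.

* `surjective_of_isPlaceReduction` : a place reduction is onto;
* `exists_descent_along` : for `φ`, `φt` of the same degree `l + 1`, `φt` separable, carrying integral
  pairs to integral pairs, there is a place reduction `r` at level `N` with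
  `(r' w)|_{φt} = r (w|_φ)`.
-/
import Mathlib
import Fermat.Agent.MAZ.HeckeRed71.Main
import Fermat.Agent.MAZ.HeckeRed71.SepBeta
import Fermat.Agent.MAZ.G0Red56.Descent
import Fermat.Agent.MAZ.G0Red56.FundSep
import Fermat.Agent.X0.LaurentPlace
import Fermat.Agent.ES.HECKE.FundId12

set_option autoImplicit false
set_option linter.unusedSectionVars false
set_option linter.style.haveILetI false
set_option synthInstance.maxHeartbeats 400000

noncomputable section

open HahnSeries ModularCurve IntermediateField AlgebraicCurve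

namespace Fermat.Agent.MAZ.HeckeRed71.Compat

open Fermat.Agent.MAZ.HeckeRed71.Abstract Fermat.Agent.MAZ.HeckeRed71.Main
open Fermat.Agent.T1B.Brandt27 Fermat.Agent.ES.HECKE Fermat.Agent.RED.TOP
open Fermat.Agent.ES.RED Fermat.Agent.ES.KRON Fermat.Agent.X0
open Fermat.Agent.MAZ.G0Red56

local notation "Qb" => AlgebraicClosure ℚ

section Setting

variable {ℓ : ℕ} [Fact ℓ.Prime] {A : ValuationSubring Qb}

local notation "κ" => IsLocalRing.ResidueField A
local notation "π" => IsLocalRing.residue A

/-- a place reduction is onto. -/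
theorem surjective_of_isPlaceReduction {M : ℕ} [NeZero M]
    {r' : Place Qb (modularFunctionFieldBar M) → Place κ (modularFunctionFieldFullC κ M)}
    (hr' : IsPlaceReductionModL A M r') : Function.Surjective r' := by
  classical
  intro Q'
  obtain ⟨f, hf0, hf1⟩ := LaurentPlace.exists_ord_eq_one Q'
  obtain ⟨P', -, hP'⟩ := exists_principal_lift hr' f hf0
  have h1 : Finsupp.mapDomain r' P' Q' ≠ 0 := by
    rw [hP' Q', hf1]
    exact one_ne_zero
  have h2 : Q' ∈ (Finsupp.mapDomain r' P').support := Finsupp.mem_support_iff.mpr h1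
  obtain ⟨w, -, hw⟩ := Finset.mem_image.mp (Finsupp.mapDomain_support h2)
  exact ⟨w, hw⟩

variable (hA : A.LiesOverPrime ℓ)
  {N l : ℕ} [NeZero N] [NeZero l] (hℓN : ¬ ℓ ∣ N) (hℓNl : ¬ ℓ ∣ N * l)

include hA hℓN hℓNl in
/-- **Descent of the place reduction along a degeneracy map.** -/
theorem exists_descent_along
    (φ : ↥(modularFunctionFieldBar N) →ₐ[Qb] ↥(modularFunctionFieldBar (N * l)))
    (hφ : φ.toRingHom.IsIntegral)
    (φt : ↥(modularFunctionFieldFullC κ N) →ₐ[κ] ↥(modularFunctionFieldFullC κ (N * l)))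
    (hφt : φt.toRingHom.IsIntegral)
    (hfinφ : FiniteAlong Qb φ) (hdφ : finrankAlong Qb φ = l + 1)
    (hfinφt : FiniteAlong κ φt) (hsepφt : SeparableAlong κ φt) (hdφt : finrankAlong κ φt = l + 1)
    {r' : Place Qb (modularFunctionFieldBar (N * l)) →
      Place κ (modularFunctionFieldFullC κ (N * l))} (hr' : IsPlaceReductionModL A (N * l) r')
    (hpair : ∀ p ∈ pairs A N, ∀ D' : Divisor Qb (modularFunctionFieldBar (N * l)),
      (∀ w, D' w = w.ord (φ p.1)) → ∀ Q', Finsupp.mapDomain r' D' Q' = Q'.ord (φt p.2))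
    (hinfP : Infinite (Place κ (modularFunctionFieldFullC κ N))) :
    ∃ r : Place Qb (modularFunctionFieldBar N) → Place κ (modularFunctionFieldFullC κ N),
      IsPlaceReductionModL A N r ∧
        ∀ w : Place Qb (modularFunctionFieldBar (N * l)),
          (r' w).restrictAlong φt hφt = r (w.restrictAlong φ hφ) := by
  classical
  haveI : IsAlgClosed κ := KronInst10.isAlgClosed_residueField A
  haveI : CharP κ ℓ := KronInst10.charP_residueField A (Fact.out : ℓ.Prime) hA
  haveI := FbarFacts20.hasPrincipalDivisors_bar (N * l)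
  -- the algebra structures
  letI := algebraAlong φ
  haveI := isScalarTower_along φ
  haveI := isIntegral_along φ hφ
  haveI : Module.Finite ↥(modularFunctionFieldBar N) ↥(modularFunctionFieldBar (N * l)) := hfinφ
  letI := algebraAlong φt
  haveI := isScalarTower_along φt
  haveI := isIntegral_along φt hφt
  haveI : Module.Finite ↥(modularFunctionFieldFullC κ N) ↥(modularFunctionFieldFullC κ (N * l)) :=
    hfinφt
  haveI : Algebra.IsSeparable ↥(modularFunctionFieldFullC κ N)
      ↥(modularFunctionFieldFullC κ (N * l)) := hsepφt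
  have hgen : PrincipalGeneratedByIntegral A π N :=
    GaussUnit25.principalGeneratedByIntegral A ℓ hA N hℓN
  -- the two local sum formulas
  have hsumF : ∀ v : Place Qb (modularFunctionFieldBar N),
      ∑ w ∈ v.fiber ↥(modularFunctionFieldBar (N * l)),
        (w.ramificationIndex ↥(modularFunctionFieldBar N) : ℤ) = ((l + 1 : ℕ) : ℤ) := by
    intro v
    rw [FundId12.sum_ramificationIndex (FbarFacts20.isGen_j N) v]
    exact_mod_cast hdφ
  have hres : ∀ w : Place κ ↥(modularFunctionFieldFullC κ (N * l)), ∀ f ∈ w.toValuationSubring,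
      ∃ c : κ, f = algebraMap κ ↥(modularFunctionFieldFullC κ (N * l)) c ∨
        0 < w.ord (f - algebraMap κ ↥(modularFunctionFieldFullC κ (N * l)) c) :=
    fun w f hf => FF.exists_ord_sub_pos
      (Fermat.Agent.T1B.Hecke87.CharPX0.isGen_jC κ ℓ (N * l) hℓNl) w hf
  have hG := fun Q : Place κ ↥(modularFunctionFieldFullC κ N) =>
    FundSep.sum_ramificationIndex_sep (F := ↥(modularFunctionFieldFullC κ N)) hres Q
  have hfibG : ∀ Q : Place κ ↥(modularFunctionFieldFullC κ N),
      {Q' : Place κ ↥(modularFunctionFieldFullC κ (N * l)) |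
        Q'.restrict ↥(modularFunctionFieldFullC κ N) = Q}.Finite := fun Q => (hG Q).choose
  have hsumG : ∀ Q : Place κ ↥(modularFunctionFieldFullC κ N),
      ∑ Q' ∈ (hfibG Q).toFinset, (Q'.ramificationIndex ↥(modularFunctionFieldFullC κ N) : ℤ) =
        ((l + 1 : ℕ) : ℤ) := by
    intro Q
    rw [(hG Q).choose_spec]
    exact_mod_cast hdφt
  have hdiv : ∀ x : Pic0 Qb (modularFunctionFieldBar N),
      ∃ z : Pic0 Qb (modularFunctionFieldBar N), (l + 1) • z = x :=
    fun x => Fermat.Agent.MW.Div73.jzero_divisible N (l + 1) (Nat.succ_ne_zero l) x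
  -- non-finiteness of the image
  have hsurj := surjective_of_isPlaceReduction hr'
  have hinf : ∀ S : Set (Place κ ↥(modularFunctionFieldFullC κ N)), S.Finite →
      ∃ w : Place Qb (modularFunctionFieldBar (N * l)),
        (r' w).restrict ↥(modularFunctionFieldFullC κ N) ∉ S := by
    intro S hS
    obtain ⟨Q, hQ⟩ := hS.infinite_compl.nonempty
    have hne : (hfibG Q).toFinset.Nonempty := by
      by_contra hempty
      rw [Finset.not_nonempty_iff_eq_empty] at hempty
      have := hsumG Q
      rw [hempty, Finset.sum_empty] at this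
      have h2 : ((l + 1 : ℕ) : ℤ) ≠ 0 := by exact_mod_cast Nat.succ_ne_zero l
      exact h2 this.symm
    obtain ⟨Q', hQ'⟩ := hne
    have hQ'Q : Q'.restrict ↥(modularFunctionFieldFullC κ N) = Q := by simpa using hQ'
    obtain ⟨w, hw⟩ := hsurj Q'
    exact ⟨w, by rw [hw, hQ'Q]; exact hQ⟩
  obtain ⟨r, hrc, hrI⟩ := Descent.exists_descent (r' := r') (d := l + 1) (Nat.succ_pos l)
    hsumF hfibG hsumG (FbarFacts20.deg_eq_one_bar N) (pairs A N) hpair (closure_pairs hgen)
    hdiv hinf
  refine ⟨r, ⟨fun P => ?_, ?_⟩, hrc⟩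
  · rw [FbarFacts20.deg_eq_one_bar N P]
    exact FF.deg_eq_one (Fermat.Agent.T1B.Hecke87.CharPX0.isGen_jC κ ℓ N hℓN) (r P)
  · intro y hy hyk hne D hD Q
    exact hrI (⟨coeffMap A.subtype y, hy⟩, ⟨coeffMap π y, hyk⟩) ⟨y, hy, hyk, hne, rfl⟩ D hD Q

end Setting

end Fermat.Agent.MAZ.HeckeRed71.Compat
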