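/-
MAZ programme (S15), brick F-E4' (helper71): **`ker (reductionModL A N)` is stable under `T_l`**
(`l` prime, `l ∤ N`, `l ≠ ℓ = char`, `ℓ ∤ N`), given ONLY the existence of place reductions
(`ReductionInputsModL`) at the two levels `N` and `N l` (brick F-G0).

* `infinite_place_fullC` : `F̃_N` has infinitely many places;
* `eq_placeReductionModL` : uniqueness of the place reduction (instantiation of `G0_71/Unique`);
* `restrictAlong_alpha`, `restrictAlong_beta` : the two compatibilities, for ARBITRARY place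
  reductions at the two levels;
* `ker_red_hecke_stable_of_inputs`, `hE4_of_g0` : F-E4' in the shape consumed by `Endgame88`.
-/
import Mathlib
import Fermat.Agent.MAZ.HeckeRed71.Compat
import Fermat.Agent.MAZ.G0_71.Unique
import Fermat.Agent.MAZ.InfPlace89.Main
import Fermat.Agent.MAZ.RedCusp18.Main

set_option autoImplicit false
set_option linter.unusedSectionVars false
set_option linter.style.haveILetI false
set_option synthInstance.maxHeartbeats 400000

noncomputable section

open HahnSeries ModularCurve IntermediateField AlgebraicCurve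

namespace Fermat.Agent.MAZ.HeckeRed71.Final

open Fermat.Agent.MAZ.HeckeRed71.Abstract Fermat.Agent.MAZ.HeckeRed71.Main
open Fermat.Agent.MAZ.HeckeRed71.Compat
open Fermat.Agent.T1B.Brandt27 Fermat.Agent.ES.HECKE Fermat.Agent.RED.TOP
open Fermat.Agent.ES.RED Fermat.Agent.ES.KRON Fermat.Agent.X0
open Fermat.Agent.MAZ.RedFibre34 Fermat.Agent.MAZ.RedCusp18

local notation "Qb" => AlgebraicClosure ℚ

section Setting

variable {ℓ : ℕ} [Fact ℓ.Prime] {A : ValuationSubring Qb} (hA : A.LiesOverPrime ℓ)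

local notation "κ" => IsLocalRing.ResidueField A
local notation "π" => IsLocalRing.residue A

include hA in
/-- `F̃_N` has infinitely many places. -/
theorem infinite_place_fullC (N : ℕ) [NeZero N] (hℓN : ¬ ℓ ∣ N) :
    Infinite (Place κ (modularFunctionFieldFullC κ N)) := by
  haveI : IsAlgClosed κ := KronInst10.isAlgClosed_residueField A
  haveI : CharP κ ℓ := KronInst10.charP_residueField A (Fact.out : ℓ.Prime) hA
  haveI : HasPrincipalDivisors κ ↥(modularFunctionFieldFullC κ N) :=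
    Fermat.Agent.T1B.Hecke87.HPDCharP.hasPrincipalDivisors_fullC κ ℓ N hℓN
  haveI : Infinite κ := IsAlgClosed.instInfinite
  refine Fermat.Agent.MAZ.InfPlace89.infinite_place (jk κ N) (qPlace κ N) ?_ ?_
  · rw [FF.deg_eq_one (Fermat.Agent.T1B.Hecke87.CharPX0.isGen_jC κ ℓ N hℓN) (qPlace κ N)]
    exact Nat.one_pos
  · rw [qPlace_ord_jk]
    norm_num

include hA in
/-- **Uniqueness of the place reduction** at a level prime to `ℓ`. -/
theorem placeReduction_unique (N : ℕ) [NeZero N] (hℓN : ¬ ℓ ∣ N)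
    {r₁ r₂ : Place Qb (modularFunctionFieldBar N) → Place κ (modularFunctionFieldFullC κ N)}
    (h₁ : IsPlaceReductionModL A N r₁) (h₂ : IsPlaceReductionModL A N r₂) : r₁ = r₂ := by
  haveI := FbarFacts20.hasPrincipalDivisors_bar N
  have hgen : PrincipalGeneratedByIntegral A π N :=
    GaussUnit25.principalGeneratedByIntegral A ℓ hA N hℓN
  refine Fermat.Agent.MAZ.G0.Unique.isPlaceReductionAlong_unique h₁ h₂ hgen
    (fun x n hn => Fermat.Agent.MW.Div73.jzero_divisible N n hn.ne' x)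
    (FbarFacts20.deg_eq_one_bar N) ?_
  have e1 : coeffMap A.subtype (jqModC A) = jqModC Qb := coeffMap_jqModC _
  have e2 : coeffMap π (jqModC A) = jqModC κ := coeffMap_jqModC _
  refine ⟨jqModC A, by rw [e1]; exact jqModC_mem_base Qb N,
    by rw [e2]; exact jqModC_mem_full κ N, qPlace κ N, ?_, ?_⟩
  · rw [e2]
    exact jqModC_ne_zero_of_nontrivial κ
  · have h3 : (⟨coeffMap π (jqModC A), by rw [e2]; exact jqModC_mem_full κ N⟩ :
        ↥(modularFunctionFieldFullC κ N)) = jk κ N := Subtype.ext e2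
    rw [h3, qPlace_ord_jk]
    norm_num

variable {N l : ℕ} [NeZero N] [NeZero l] (hl : l.Prime) (hlN : ¬ l ∣ N) (hℓN : ¬ ℓ ∣ N)
  (hℓl : ℓ ≠ l)

/-- integral pairs are carried by `α` to integral pairs at level `N l`. -/
theorem pairs_alpha {r' : Place Qb (modularFunctionFieldBar (N * l)) →
      Place κ (modularFunctionFieldFullC κ (N * l))} (hr' : IsPlaceReductionModL A (N * l) r')
    (p : ↥(modularFunctionFieldBar N) × ↥(modularFunctionFieldFullC κ N)) (hp : p ∈ pairs A N)
    (D' : Divisor Qb (modularFunctionFieldBar (N * l)))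
    (hD' : ∀ w, D' w = w.ord (heckeAlphaBar Qb N l p.1))
    (Q' : Place κ (modularFunctionFieldFullC κ (N * l))) :
    Finsupp.mapDomain r' D' Q' = Q'.ord (alphaC κ N l p.2) := by
  obtain ⟨y, hy, hyk, hne, rfl⟩ := hp
  have hy' : coeffMap A.subtype y ∈ modularFunctionFieldBar (N * l) := by
    have := (heckeAlphaBar Qb N l ⟨coeffMap A.subtype y, hy⟩).2
    rwa [coe_heckeAlphaBar] at this
  have hyk' : coeffMap π y ∈ modularFunctionFieldFullC κ (N * l) := by
    have := (alphaC κ N l ⟨coeffMap π y, hyk⟩).2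
    rwa [coe_alphaC] at this
  have h1 : (⟨coeffMap A.subtype y, hy'⟩ : ↥(modularFunctionFieldBar (N * l))) =
      heckeAlphaBar Qb N l ⟨coeffMap A.subtype y, hy⟩ := by
    apply Subtype.ext
    rw [coe_heckeAlphaBar]
  have h2 : (⟨coeffMap π y, hyk'⟩ : ↥(modularFunctionFieldFullC κ (N * l))) =
      alphaC κ N l ⟨coeffMap π y, hyk⟩ := by
    apply Subtype.ext
    rw [coe_alphaC]
  have := hr'.2 y hy' hyk' hne D' (fun w => by rw [hD' w, h1]) Q'
  rw [this, h2]

include hA hl hlN hℓN hℓl in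
/-- **`α`-compatibility** of arbitrary place reductions at levels `N l` and `N`. -/
theorem restrictAlong_alpha
    {r : Place Qb (modularFunctionFieldBar N) → Place κ (modularFunctionFieldFullC κ N)}
    (hr : IsPlaceReductionModL A N r)
    {r' : Place Qb (modularFunctionFieldBar (N * l)) →
      Place κ (modularFunctionFieldFullC κ (N * l))} (hr' : IsPlaceReductionModL A (N * l) r')
    (hαt : (alphaC κ N l).toRingHom.IsIntegral)
    (w : Place Qb (modularFunctionFieldBar (N * l))) :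
    (r' w).restrictAlong (alphaC κ N l) hαt =
      r (w.restrictAlong (heckeAlphaBar Qb N l)
        (AlongDegree25.heckeAlphaBarIntegral Qb N l hl hlN)) := by
  haveI : IsAlgClosed κ := KronInst10.isAlgClosed_residueField A
  haveI : CharP κ ℓ := KronInst10.charP_residueField A (Fact.out : ℓ.Prime) hA
  have hℓNl : ¬ ℓ ∣ N * l := not_dvd_mul' (Fact.out : ℓ.Prime) hl hℓN hℓl
  obtain ⟨r₀, hr₀, hc⟩ := exists_descent_along hA hℓN hℓNl (heckeAlphaBar Qb N l)
    (AlongDegree25.heckeAlphaBarIntegral Qb N l hl hlN) (alphaC κ N l)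
    hαt
    (AlongDegree25.finiteAlong_alpha Qb N l hl hlN) (AlongDegree25.finrankAlong_alpha Qb N l hl hlN)
    (finiteAlong_alphaC κ ℓ N l hl hlN hℓN hℓl) (separableAlong_alphaC κ ℓ N l hℓNl)
    (finrankAlong_alphaC κ ℓ N l hl hlN hℓN hℓl) hr' (pairs_alpha hr')
    (infinite_place_fullC hA N hℓN)
  rw [hc w, placeReduction_unique hA N hℓN hr₀ hr]

include hA hl hlN hℓN hℓl in
/-- **`β`-compatibility** of arbitrary place reductions at levels `N l` and `N`. -/
theorem restrictAlong_beta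
    {r : Place Qb (modularFunctionFieldBar N) → Place κ (modularFunctionFieldFullC κ N)}
    (hr : IsPlaceReductionModL A N r)
    {r' : Place Qb (modularFunctionFieldBar (N * l)) →
      Place κ (modularFunctionFieldFullC κ (N * l))} (hr' : IsPlaceReductionModL A (N * l) r')
    (hβt : (betaC κ N l).toRingHom.IsIntegral)
    (w : Place Qb (modularFunctionFieldBar (N * l))) :
    (r' w).restrictAlong (betaC κ N l) hβt =
      r (w.restrictAlong (heckeBetaBar Qb N l)
        (AlongDegree25.heckeBetaBarIntegral Qb N l hl hlN)) := by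
  haveI : IsAlgClosed κ := KronInst10.isAlgClosed_residueField A
  haveI : CharP κ ℓ := KronInst10.charP_residueField A (Fact.out : ℓ.Prime) hA
  have hℓNl : ¬ ℓ ∣ N * l := not_dvd_mul' (Fact.out : ℓ.Prime) hl hℓN hℓl
  obtain ⟨r₀, hr₀, hc⟩ := exists_descent_along hA hℓN hℓNl (heckeBetaBar Qb N l)
    (AlongDegree25.heckeBetaBarIntegral Qb N l hl hlN) (betaC κ N l)
    hβt
    (AlongDegree25.finiteAlong_beta Qb N l hl hlN) (AlongDegree25.finrankAlong_beta Qb N l hl hlN)
    (finiteAlong_betaC κ ℓ N l hl hlN hℓN hℓl)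
    (Fermat.Agent.MAZ.HeckeRed71.SepBeta.isSeparable_betaC κ ℓ N l hl hlN hℓN hℓl)
    (finrankAlong_betaC κ ℓ N l hl hlN hℓN hℓl) hr' (pairs_beta hr')
    (infinite_place_fullC hA N hℓN)
  rw [hc w, placeReduction_unique hA N hℓN hr₀ hr]

include hA hl hlN hℓN hℓl in
/-- **F-E4'** from F-G0 at the two levels. -/
theorem ker_red_hecke_stable_of_inputs
    (h : ReductionInputsModL A N) (h' : ReductionInputsModL A (N * l))
    (z : JZero N) (hz : reductionModL A N z = 0) :
    reductionModL A N (heckeOperatorAlong Qb N l z) = 0 := by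
  haveI : IsAlgClosed κ := KronInst10.isAlgClosed_residueField A
  haveI : CharP κ ℓ := KronInst10.charP_residueField A (Fact.out : ℓ.Prime) hA
  have hr := isPlaceReductionModL_placeReductionModL h
  have hr' := isPlaceReductionModL_placeReductionModL h'
  haveI := infinite_place_fullC hA N hℓN
  have hnc : ∃ v₁ v₂ : Place Qb (modularFunctionFieldBar N),
      placeReductionModL h v₁ ≠ placeReductionModL h v₂ := by
    obtain ⟨Q₁, Q₂, hQ⟩ := exists_pair_ne (Place κ (modularFunctionFieldFullC κ N))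
    obtain ⟨v₁, rfl⟩ := surjective_of_isPlaceReduction hr Q₁
    obtain ⟨v₂, rfl⟩ := surjective_of_isPlaceReduction hr Q₂
    exact ⟨v₁, v₂, hQ⟩
  exact reductionModL_hecke_eq_zero hA hl hlN hℓN hℓl h hr'
    (isIntegral_alphaC κ ℓ N l hl hlN hℓN hℓl) (isIntegral_betaC κ ℓ N l hl hlN hℓN hℓl)
    (restrictAlong_alpha hA hl hlN hℓN hℓl hr hr' _)
    (restrictAlong_beta hA hl hlN hℓN hℓl hr hr' _) hnc z hz

end Setting

/-- **F-E4' in the shape of `Endgame88`** (`hE4`), from F-G0 (`ReductionInputsModL` at all levels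
prime to the residue characteristic). -/
theorem hE4_of_g0 {p : ℕ} [NeZero p] (hp : p.Prime)
    (hG0 : ∀ {ℓ' : ℕ}, ℓ'.Prime → ∀ (M : ℕ) [NeZero M], ¬ ℓ' ∣ M →
      ∀ A' : ValuationSubring Qb, A'.LiesOverPrime ℓ' → ReductionInputsModL A' M)
    {ℓ' : ℕ} (hℓ' : ℓ'.Prime) (hℓ'p : ℓ' ≠ p) (A' : ValuationSubring Qb)
    (hA' : A'.LiesOverPrime ℓ') (q : Nat.Primes) (hqℓ : (q : ℕ) ≠ ℓ') (hqp : (q : ℕ) ≠ p)
    (z : JZero p) (hz : reductionModL A' p z = 0) :
    reductionModL A' p (heckeOperatorBar p q z) = 0 := by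
  haveI : Fact ℓ'.Prime := ⟨hℓ'⟩
  haveI : NeZero (q : ℕ) := ⟨q.2.ne_zero⟩
  have hℓ'N : ¬ ℓ' ∣ p := fun hd => hℓ'p ((Nat.prime_dvd_prime_iff_eq hℓ' hp).mp hd)
  have hqN : ¬ (q : ℕ) ∣ p := fun hd => hqp ((Nat.prime_dvd_prime_iff_eq q.2 hp).mp hd)
  have hℓ'Nq : ¬ ℓ' ∣ p * (q : ℕ) := not_dvd_mul' hℓ' q.2 hℓ'N (Ne.symm hqℓ)
  rw [heckeOperatorBar_apply]
  exact ker_red_hecke_stable_of_inputs hA' q.2 hqN hℓ'N (Ne.symm hqℓ)
    (hG0 hℓ' p hℓ'N A' hA') (hG0 hℓ' (p * (q : ℕ)) hℓ'Nq A' hA') z hz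

end Fermat.Agent.MAZ.HeckeRed71.Final
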