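/-
Fermat/Agent/MAZ/HeckeRed71/S15Fin.lean  (helper71)

Programme MAZ (S15): **S15 from (FIN') alone** — the moduli + reduction + cusp half of the top
assembly.  All inputs of `Endgame88.s15_of_inputs_order` except (FIN') are discharged by landed,
unconditional bricks:

* `hS18`                : `Fermat.Agent.RED.S18Exports4.s18` (= S18);
* `hG0`, `hE4`          : `HeckeRed71.G0All.hG0`, `HeckeRed71.G0All.hE4`;
* `n₀ = p - 1`, `hcusp` : `Ogg24.pred_nsmul_c0`;   `hc0` : `OggL24.c0_ne_zero`;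
* `hE2l`                : `OggL24.exists_lpart_red_ne_zero` (with `hG0`);
* `x`, `hxfix`, `hx`    : `D3Prime24.e3_uncond` (E3, place form);
* `hczfix`              : `CuspGal19.galois_smul_cuspZero`.

So the frozen statement S15 follows from the single remaining input

  (FIN')  for every prime `r ∣ p - 1` and every finite `S ⊇ {2, 3, p, r}` there is `t ∈ heckeRing p S`
          with `t c₀ = s • c₀`, `r ∤ s`, and `t (J₀(p)(ℚ))` torsion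

(`FinAbs19.eisenstein_fin_final` produces exactly this conclusion).
-/
import Mathlib
import Fermat.Agent.MAZ.Endgame88.Inst
import Fermat.Agent.MAZ.HeckeRed71.G0All
import Fermat.Agent.MAZ.OggL24.Order
import Fermat.Agent.MAZ.CuspGal19.Main
import Fermat.Agent.MAZ.D3Prime24.E3
import Fermat.Agent.RED.S18Exports4

set_option autoImplicit false
set_option linter.unusedSectionVars false
set_option linter.unusedVariables false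

open ModularCurve AlgebraicCurve WeierstrassCurve WeierstrassCurve.Affine

noncomputable section

namespace Fermat.Agent.MAZ.HeckeRed71.S15Fin

open Fermat.Agent.MAZ.Gm5 Fermat.Agent.MAZ.HeckeCusp89 Fermat.Agent.MAZ.Endgame88

local notation "Qb" => AlgebraicClosure ℚ
local notation "Γℚ" => (AlgebraicClosure ℚ ≃ₐ[ℚ] AlgebraicClosure ℚ)

/-- `p ∉ {2, 3, 5, 7, 13}` prime ⇒ `p - 1 ∤ 12`. -/
theorem not_pred_dvd_twelve {p : ℕ} (hp : p.Prime) (hp' : p ∉ ({2, 3, 5, 7, 13} : Finset ℕ)) :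
    ¬ (p - 1) ∣ 12 := by
  intro h2
  have h3 : p - 1 ≤ 12 := Nat.le_of_dvd (by norm_num) h2
  have h4 : p ≤ 13 := by omega
  have h5 := hp.two_le
  simp only [Finset.mem_insert, Finset.mem_singleton, not_or] at hp'
  obtain ⟨hp2, hp3, hp5, hp7, hp13⟩ := hp'
  interval_cases p <;> first | omega | (norm_num at hp) | (norm_num at h2)

/-- **S15 from (FIN'), order form**: (FIN') is only needed for the primes dividing the order of the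
cuspidal class `c₀`. -/
theorem s15_of_fin_order
    {p : ℕ} [NeZero p] (hp : p.Prime) (hp' : p ∉ ({2, 3, 5, 7, 13} : Finset ℕ))
    (W : WeierstrassCurve ℤ) (hΔ : W.Δ ≠ 0)
    (Q : ((W.map (Int.castRingHom ℚ))⁄(AlgebraicClosure ℚ)).Point)
    (hQfix : ∀ σ : AlgebraicClosure ℚ ≃ₐ[ℚ] AlgebraicClosure ℚ, σ • Q = Q)
    (hQord : addOrderOf Q = p)
    (hFIN : ∀ r : ℕ, r.Prime → r ∣ addOrderOf (c0 p) → ∀ S : Finset ℕ,
      ({2, 3, p, r} : Finset ℕ) ⊆ S →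
      ∃ t ∈ heckeRing p S, (∃ s : ℤ, ¬ (r : ℤ) ∣ s ∧ t (c0 p) = s • c0 p) ∧
        ∀ y ∈ JQ p, ∃ N : ℕ, 0 < N ∧ N • t y = 0)
    (h2Δ : (2 : ℤ) ∣ W.Δ) (h2c₄ : ¬ (2 : ℤ) ∣ W.c₄)
    (h2 : ∀ A : ValuationSubring (AlgebraicClosure ℚ), A.LiesOverPrime 2 →
      ¬ W.InZeroComponentAt A Q)
    (h3Δ : (3 : ℤ) ∣ W.Δ) (h3c₄ : ¬ (3 : ℤ) ∣ W.c₄)
    (h3 : ∀ A : ValuationSubring (AlgebraicClosure ℚ), A.LiesOverPrime 3 →
      ¬ W.InZeroComponentAt A Q)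
    {ℓ : ℕ} (hℓ : ℓ.Prime) (hℓp : ℓ ≠ p) (hℓΔ : (ℓ : ℤ) ∣ W.Δ) (hℓc₄ : ¬ (ℓ : ℤ) ∣ W.c₄)
    (A : ValuationSubring (AlgebraicClosure ℚ)) (hA : A.LiesOverPrime ℓ) :
    ¬ W.InZeroComponentAt A Q := by
  have hp2 : p ≠ 2 := fun h => hp' (by simp [h])
  have hp3 : p ≠ 3 := fun h => hp' (by simp [h])
  have h12 : ¬ (p - 1) ∣ 12 := not_pred_dvd_twelve hp hp'
  obtain ⟨x, hxfix, hx⟩ :=
    Fermat.Agent.MAZ.D3Prime24.e3_uncond hp hp2 W hΔ Q hQfix hQord h2Δ h2c₄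
  have hG0 : ∀ {ℓ' : ℕ}, ℓ'.Prime → ℓ' ≠ p → ∀ A' : ValuationSubring Qb, A'.LiesOverPrime ℓ' →
      ReductionInputsModL A' p :=
    fun {ℓ'} h1 h2 A' h3 => Fermat.Agent.MAZ.HeckeRed71.G0All.hG0 hp h1 h2 A' h3
  refine s15_of_inputs_order hp hp2 hp3 W Q ?_ hG0 ?_ (p - 1)
    (Nat.sub_pos_of_lt hp.one_lt) (Fermat.Agent.MAZ.Ogg24.pred_nsmul_c0 p hp)
    (Fermat.Agent.MAZ.OggL24.c0_ne_zero p hp h12) hFIN ?_ x hxfix
    (fun σ => Fermat.Agent.MAZ.CuspGal19.galois_smul_cuspZero p hp σ)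
    (fun {ℓ'} => hx) h2Δ h2c₄ h2 h3Δ h3c₄ h3 hℓ hℓp hℓΔ hℓc₄ A hA
  · -- (S18)
    intro ℓ' hℓ' hℓ'p A' hA' hRI m hm z hmz hz
    haveI : Fact ℓ'.Prime := ⟨hℓ'⟩
    exact Fermat.Agent.RED.S18Exports4.s18 p hℓ'p A' hA' hRI m hm z hmz hz
  · -- (E4')
    intro ℓ' h1 h2' A' h3'
    exact Fermat.Agent.MAZ.HeckeRed71.G0All.hE4 hp h1 h2' A' h3'
  · -- (E2ℓ)
    intro ℓ' hℓ' h5 hℓ'p hℓ'n A' hA'
    exact Fermat.Agent.MAZ.OggL24.exists_lpart_red_ne_zero p hp hℓ' h5 A' hA'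
      (hG0 hℓ' hℓ'p A' hA') hℓ'n

/-- **S15 from (FIN')**: (FIN') for all primes `r ∣ p - 1` (in particular `r ≠ p`). -/
theorem s15_of_fin
    {p : ℕ} [NeZero p] (hp : p.Prime) (hp' : p ∉ ({2, 3, 5, 7, 13} : Finset ℕ))
    (W : WeierstrassCurve ℤ) (hΔ : W.Δ ≠ 0)
    (Q : ((W.map (Int.castRingHom ℚ))⁄(AlgebraicClosure ℚ)).Point)
    (hQfix : ∀ σ : AlgebraicClosure ℚ ≃ₐ[ℚ] AlgebraicClosure ℚ, σ • Q = Q)
    (hQord : addOrderOf Q = p)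
    (hFIN : ∀ r : ℕ, r.Prime → r ∣ p - 1 → ∀ S : Finset ℕ,
      ({2, 3, p, r} : Finset ℕ) ⊆ S →
      ∃ t ∈ heckeRing p S, (∃ s : ℤ, ¬ (r : ℤ) ∣ s ∧ t (c0 p) = s • c0 p) ∧
        ∀ y ∈ JQ p, ∃ N : ℕ, 0 < N ∧ N • t y = 0)
    (h2Δ : (2 : ℤ) ∣ W.Δ) (h2c₄ : ¬ (2 : ℤ) ∣ W.c₄)
    (h2 : ∀ A : ValuationSubring (AlgebraicClosure ℚ), A.LiesOverPrime 2 →
      ¬ W.InZeroComponentAt A Q)
    (h3Δ : (3 : ℤ) ∣ W.Δ) (h3c₄ : ¬ (3 : ℤ) ∣ W.c₄)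
    (h3 : ∀ A : ValuationSubring (AlgebraicClosure ℚ), A.LiesOverPrime 3 →
      ¬ W.InZeroComponentAt A Q)
    {ℓ : ℕ} (hℓ : ℓ.Prime) (hℓp : ℓ ≠ p) (hℓΔ : (ℓ : ℤ) ∣ W.Δ) (hℓc₄ : ¬ (ℓ : ℤ) ∣ W.c₄)
    (A : ValuationSubring (AlgebraicClosure ℚ)) (hA : A.LiesOverPrime ℓ) :
    ¬ W.InZeroComponentAt A Q :=
  s15_of_fin_order hp hp' W hΔ Q hQfix hQord
    (fun r hr hrn S hS =>
      hFIN r hr (hrn.trans (Fermat.Agent.MAZ.Ogg24.addOrderOf_c0_dvd_pred p hp)) S hS)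
    h2Δ h2c₄ h2 h3Δ h3c₄ h3 hℓ hℓp hℓΔ hℓc₄ A hA

end Fermat.Agent.MAZ.HeckeRed71.S15Fin
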